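import Mathlib

set_option autoImplicit false
set_option linter.unusedSectionVars false

open Finset

namespace Fermat.Agent.S10

/-! A computational model of `ℤ[X]/(X ^ p - 1)`: coefficient vectors `Fin p → ℤ` with cyclic
convolution. Identities in the model can be checked by `decide`, and transported to any
commutative ring with an element `ζ` such that `ζ ^ p = 1`. -/

section

variable {p : ℕ} [NeZero p] {R : Type*} [CommRing R]

/-- Evaluation of a coefficient vector at `ζ`. -/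
def cev (ζ : R) (c : Fin p → ℤ) : R := ∑ i : Fin p, (c i : R) * ζ ^ (i : ℕ)

/-- Cyclic convolution. -/
def cmul (a b : Fin p → ℤ) : Fin p → ℤ := fun k => ∑ i : Fin p, a i * b (k - i)

/-- The substitution `ζ ↦ ζ ^ t`. -/
def cconj (t : ℕ) (a : Fin p → ℤ) : Fin p → ℤ :=
  fun k => ∑ i : Fin p, if (t * (i : ℕ)) % p = (k : ℕ) then a i else 0

/-- The vector of the constant `n`. -/
def cconst (n : ℤ) : Fin p → ℤ := fun k => if (k : ℕ) = 0 then n else 0

theorem pow_mod_of_pow_eq_one {ζ : R} (hζ : ζ ^ p = 1) (n : ℕ) : ζ ^ (n % p) = ζ ^ n := by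
  conv_rhs => rw [← Nat.div_add_mod n p, pow_add, pow_mul, hζ, one_pow, one_mul]

theorem cev_add (ζ : R) (a b : Fin p → ℤ) : cev ζ (a + b) = cev ζ a + cev ζ b := by
  simp [cev, add_mul, Finset.sum_add_distrib]

theorem cev_sub (ζ : R) (a b : Fin p → ℤ) : cev ζ (a - b) = cev ζ a - cev ζ b := by
  simp [cev, sub_mul, Finset.sum_sub_distrib]

theorem cev_smul (ζ : R) (n : ℤ) (a : Fin p → ℤ) : cev ζ (n • a) = n * cev ζ a := by
  simp [cev, Finset.mul_sum, mul_assoc]

theorem cev_cconst (ζ : R) (n : ℤ) : cev ζ (cconst n : Fin p → ℤ) = n := by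
  unfold cev cconst
  rw [Finset.sum_eq_single (0 : Fin p)]
  · simp
  · intro b _ hb
    have : (b : ℕ) ≠ 0 := fun h => hb (Fin.ext (by simpa using h))
    simp [this]
  · simp

theorem cev_cmul {ζ : R} (hζ : ζ ^ p = 1) (a b : Fin p → ℤ) :
    cev ζ (cmul a b) = cev ζ a * cev ζ b := by
  unfold cev cmul
  rw [Finset.sum_mul_sum]
  push_cast
  simp_rw [Finset.sum_mul]
  rw [Finset.sum_comm]
  refine Finset.sum_congr rfl fun i _ => ?_
  rw [← Equiv.sum_comp (Equiv.addLeft i)]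
  refine Finset.sum_congr rfl fun j _ => ?_
  simp only [Equiv.coe_addLeft, add_sub_cancel_left]
  have : ζ ^ ((i + j : Fin p) : ℕ) = ζ ^ (i : ℕ) * ζ ^ (j : ℕ) := by
    rw [Fin.val_add, pow_mod_of_pow_eq_one hζ, pow_add]
  rw [this]; ring

theorem cev_cconj {ζ : R} (hζ : ζ ^ p = 1) {S : Type*} [FunLike S R R] [RingHomClass S R R]
    (σ : S) (t : ℕ) (hσ : σ ζ = ζ ^ t) (a : Fin p → ℤ) :
    σ (cev ζ a) = cev ζ (cconj t a) := by
  unfold cev cconj
  rw [map_sum]
  push_cast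
  simp_rw [Finset.sum_mul]
  rw [Finset.sum_comm]
  refine Finset.sum_congr rfl fun i _ => ?_
  rw [map_mul, map_pow, map_intCast, hσ, ← pow_mul, ← pow_mod_of_pow_eq_one hζ (t * (i : ℕ))]
  have hlt : (t * (i : ℕ)) % p < p := Nat.mod_lt _ (Nat.pos_of_ne_zero (NeZero.ne p))
  rw [Finset.sum_eq_single (⟨(t * (i : ℕ)) % p, hlt⟩ : Fin p)]
  · simp
  · intro b _ hb
    have : ¬ (t * (i : ℕ)) % p = (b : ℕ) := fun h => hb (Fin.ext h.symm)
    simp [this]
  · simp

theorem map_cev {S : Type*} [CommRing S] {F : Type*} [FunLike F R S] [RingHomClass F R S]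
    (φ : F) (ζ : R) (a : Fin p → ℤ) : φ (cev ζ a) = cev (φ ζ) a := by
  simp [cev, map_sum]

/-- The product of the conjugates `ζ ↦ ζ ^ (g ^ j)`, `j < n`, in the model. -/
def cnormAux (g : ℕ) (a : Fin p → ℤ) : ℕ → (Fin p → ℤ)
  | 0 => cconst 1
  | (j + 1) => cmul (cnormAux g a j) (cconj (g ^ j % p) a)

theorem cev_cnormAux {ζ : R} (hζ : ζ ^ p = 1) {S : Type*} [Monoid S] [MulSemiringAction S R]
    (τ : S) (g : ℕ) (hτ : ∀ j : ℕ, (τ ^ j) • ζ = ζ ^ (g ^ j)) (a : Fin p → ℤ) (n : ℕ) :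
    cev ζ (cnormAux g a n) = ∏ j ∈ range n, (τ ^ j) • cev ζ a := by
  induction n with
  | zero => simp [cnormAux, cev_cconst]
  | succ n ih =>
    rw [cnormAux, cev_cmul hζ, ih, Finset.prod_range_succ]
    congr 1
    have h1 : (MulSemiringAction.toRingHom S R (τ ^ n)) ζ = ζ ^ (g ^ n % p) := by
      rw [pow_mod_of_pow_eq_one hζ]; exact hτ n
    exact (cev_cconj hζ (MulSemiringAction.toRingHom S R (τ ^ n)) _ h1 a).symm

/-- A vector that is constant away from `0` evaluates to an integer at a root of `1 + X + ⋯`. -/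
theorem cev_eq_of_const {ζ : R} (hΦ : ∑ i ∈ range p, ζ ^ i = 0) (c : Fin p → ℤ) (m n : ℤ)
    (hc : c = fun k : Fin p => if (k : ℕ) = 0 then m + n else m) : cev ζ c = n := by
  have h1 : c = cconst n + m • (fun _ => 1) := by
    rw [hc]; funext k; by_cases hk : (k : ℕ) = 0 <;> simp [cconst, hk, add_comm]
  rw [h1, cev_add, cev_smul, cev_cconst]
  have : cev ζ (fun _ : Fin p => (1 : ℤ)) = 0 := by
    unfold cev
    simp only [Int.cast_one, one_mul]
    rw [← hΦ, Finset.sum_range]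
  rw [this]; simp

end

end Fermat.Agent.S10
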