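import Mathlib
import Fermat.Agent.S10.CycModel

set_option autoImplicit false

open NumberField Polynomial Finset

namespace Fermat.Agent.S10

section

variable {p : ℕ} [hp : Fact p.Prime] {K : Type*} [Field K] [NumberField K]
  [IsCyclotomicExtension {p} ℚ K]

/-- The norm of `x` in the `p`-th cyclotomic field as a product over the powers of the
automorphism `ζ ↦ ζ ^ g`, `g` a primitive root mod `p`. -/
theorem exists_aut_norm_eq_prod (g : ℕ) (hg : orderOf (g : ZMod p) = p - 1) :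
    ∃ τ : K ≃ₐ[ℚ] K, (∀ j : ℕ, (τ ^ j) (IsCyclotomicExtension.zeta p ℚ K) =
        (IsCyclotomicExtension.zeta p ℚ K) ^ (g ^ j)) ∧
      ∀ x : K, algebraMap ℚ K (Algebra.norm ℚ x) = ∏ j ∈ range (p - 1), (τ ^ j) x := by
  classical
  have hp' := hp.out
  have : NeZero p := ⟨hp'.ne_zero⟩
  set ζ := IsCyclotomicExtension.zeta p ℚ K with hζdef
  have hζ : IsPrimitiveRoot ζ p := IsCyclotomicExtension.zeta_spec p ℚ K
  have hirr : Irreducible (cyclotomic p ℚ) := cyclotomic.irreducible_rat hp'.pos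
  have hg0 : (g : ZMod p) ≠ 0 := by
    intro h0
    rw [h0] at hg
    have h1 : orderOf (0 : ZMod p) = 0 := by
      rw [orderOf_eq_zero_iff]
      intro hfin
      obtain ⟨n, hn, hn'⟩ := hfin.exists_pow_eq_one
      rw [zero_pow hn.ne'] at hn'
      exact zero_ne_one hn'
    have := hp'.two_le
    omega
  have hcop : g.Coprime p := by
    rw [Nat.coprime_comm, hp'.coprime_iff_not_dvd]
    intro hdvd
    exact hg0 ((ZMod.natCast_eq_zero_iff g p).mpr hdvd)
  have hμ : IsPrimitiveRoot (ζ ^ g) p := hζ.pow_of_coprime g hcop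
  let τ : K ≃ₐ[ℚ] K := IsCyclotomicExtension.fromZetaAut hμ hirr
  have hτ : τ ζ = ζ ^ g := IsCyclotomicExtension.fromZetaAut_spec hμ hirr
  have hpow : ∀ j : ℕ, (τ ^ j) ζ = ζ ^ (g ^ j) := by
    intro j
    induction j with
    | zero => simp
    | succ j ih =>
      rw [pow_succ', AlgEquiv.mul_apply, ih, map_pow, hτ, ← pow_mul, ← pow_succ']
  refine ⟨τ, hpow, fun x => ?_⟩
  have hgal : IsGalois ℚ K := IsCyclotomicExtension.isGalois {p} ℚ K
  rw [Algebra.norm_eq_prod_automorphisms]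
  have hinj : Set.InjOn (fun j : ℕ => τ ^ j) (range (p - 1) : Set ℕ) := by
    intro i hi j hj hij
    simp only [coe_range, Set.mem_Iio] at hi hj
    have h1 : ζ ^ (g ^ i) = ζ ^ (g ^ j) := by
      rw [← hpow i, ← hpow j]; exact congrArg (fun σ : K ≃ₐ[ℚ] K => σ ζ) hij
    have h2 : (g ^ i : ℕ) ≡ g ^ j [MOD p] := by
      have hfin : IsOfFinOrder ζ :=
        isOfFinOrder_iff_pow_eq_one.mpr ⟨p, hp'.pos, hζ.pow_eq_one⟩
      have := hfin.pow_eq_pow_iff_modEq.mp h1
      rwa [← hζ.eq_orderOf] at this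
    have h3 : ((g : ZMod p)) ^ i = (g : ZMod p) ^ j := by
      have := (ZMod.natCast_eq_natCast_iff _ _ _).mpr h2
      simpa using this
    have hfin' : IsOfFinOrder (g : ZMod p) :=
      isOfFinOrder_iff_pow_eq_one.mpr
        ⟨p - 1, Nat.sub_pos_of_lt hp'.one_lt, ZMod.pow_card_sub_one_eq_one hg0⟩
    have h4 := hfin'.pow_eq_pow_iff_modEq.mp h3
    rw [hg] at h4
    exact Nat.ModEq.eq_of_lt_of_lt h4 hi hj
  have hcard : (image (fun j : ℕ => τ ^ j) (range (p - 1))).card = Fintype.card (K ≃ₐ[ℚ] K) := by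
    rw [card_image_of_injOn hinj, card_range, ← Nat.card_eq_fintype_card,
      IsGalois.card_aut_eq_finrank, IsCyclotomicExtension.finrank K hirr,
      Nat.totient_prime hp']
  have himg : image (fun j : ℕ => τ ^ j) (range (p - 1)) = univ := eq_univ_of_card _ hcard
  rw [← himg, prod_image hinj]

/-- Norm of an explicit element of the ring of integers of the `p`-th cyclotomic field, computed
in the model. -/
theorem norm_cev_eq (g : ℕ) (hg : orderOf (g : ZMod p) = p - 1) (a : Fin p → ℤ) (m n : ℤ)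
    (h : haveI : NeZero p := ⟨hp.out.ne_zero⟩
      cnormAux g a (p - 1) = fun k : Fin p => if (k : ℕ) = 0 then m + n else m) :
    haveI : NeZero p := ⟨hp.out.ne_zero⟩
    Algebra.norm ℤ (cev (IsCyclotomicExtension.zeta_spec p ℚ K).toInteger a) = n := by
  have : NeZero p := ⟨hp.out.ne_zero⟩
  obtain ⟨τ, hpow, hnorm⟩ := exists_aut_norm_eq_prod (K := K) g hg
  set ζ := IsCyclotomicExtension.zeta p ℚ K with hζdef
  have hζ : IsPrimitiveRoot ζ p := IsCyclotomicExtension.zeta_spec p ℚ K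
  have hΦ : ∑ i ∈ range p, ζ ^ i = 0 := hζ.geom_sum_eq_zero hp.out.one_lt
  have h1 : algebraMap ℚ K (Algebra.norm ℚ (cev ζ a)) = ((n : ℤ) : K) := by
    have hc := cev_cnormAux hζ.pow_eq_one τ g (fun j => hpow j) a (p - 1)
    simp only [AlgEquiv.smul_def] at hc
    rw [hnorm, ← hc]
    exact cev_eq_of_const hΦ _ m n h
  have h2 : ((Algebra.norm ℤ (cev hζ.toInteger a) : ℤ) : ℚ) = Algebra.norm ℚ (cev ζ a) := by
    rw [Algebra.coe_norm_int]
    congr 1
    rw [show ((cev hζ.toInteger a : 𝓞 K) : K) = algebraMap (𝓞 K) K (cev hζ.toInteger a) from rfl,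
      map_cev]
    rfl
  have h3 : ((Algebra.norm ℤ (cev hζ.toInteger a) : ℤ) : K) = ((n : ℤ) : K) := by
    rw [← h1, ← h2]; simp
  exact_mod_cast h3

end

end Fermat.Agent.S10
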