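import Mathlib

set_option autoImplicit false

open NumberField Ideal

namespace Fermat.Agent.S10

/-- If `α` has norm `± ℓ ^ f` and every prime above `ℓ` has inertia degree `f`, then some prime
above `ℓ` is principal. -/
theorem exists_isPrincipal_of_norm_eq {K : Type*} [Field K] [NumberField K]
    {ℓ f : ℕ} (hℓ : ℓ.Prime) (hf : 0 < f)
    (hdeg : ∀ P : Ideal (𝓞 K), P ∈ primesOver (span {(ℓ : ℤ)}) (𝓞 K) → P.inertiaDeg ℤ = f)
    (α : 𝓞 K) (hα : (Algebra.norm ℤ α).natAbs = ℓ ^ f) :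
    ∃ P ∈ primesOver (span {(ℓ : ℤ)}) (𝓞 K), Submodule.IsPrincipal P := by
  have hnorm : absNorm (span {α}) = ℓ ^ f := by
    rw [absNorm_span_singleton, hα]
  have hne : span {α} ≠ ⊤ := by
    intro h
    rw [h, absNorm_top] at hnorm
    have := Nat.one_lt_pow hf.ne' hℓ.one_lt
    omega
  obtain ⟨P, hPmax, hle⟩ := exists_le_maximal _ hne
  have hPprime : P.IsPrime := hPmax.isPrime
  have hmem : ((ℓ : ℤ) : 𝓞 K) ∈ P := by
    have h1 : ((ℓ ^ f : ℕ) : 𝓞 K) ∈ span {α} := by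
      rw [← hnorm]; exact absNorm_mem _
    have h2 : ((ℓ ^ f : ℕ) : 𝓞 K) ∈ P := hle h1
    rw [Nat.cast_pow] at h2
    have := hPprime.mem_of_pow_mem _ h2
    simpa using this
  have hlies : P.LiesOver (span {(ℓ : ℤ)}) := by
    constructor
    have hmax : (span {(ℓ : ℤ)}).IsMaximal :=
      (Nat.prime_iff_prime_int.mp hℓ).isMaximal_span_singleton
    apply hmax.eq_of_le
    · exact (Ideal.IsPrime.under ℤ P).ne_top
    · rw [span_singleton_le_iff_mem, mem_comap]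
      simpa using hmem
  have hP : P ∈ primesOver (span {(ℓ : ℤ)}) (𝓞 K) := ⟨hPprime, hlies⟩
  refine ⟨P, hP, ?_⟩
  have hfP := hdeg P hP
  have hPnorm : absNorm P = ℓ ^ f := by
    rw [← Ideal.pow_inertiaDeg ℓ P, hfP]
  obtain ⟨J, hJ⟩ := Ideal.dvd_iff_le.mpr hle
  have hJn : absNorm J = 1 := by
    have := congrArg absNorm hJ
    rw [map_mul, hnorm, hPnorm] at this
    have hpos : 0 < ℓ ^ f := pow_pos hℓ.pos f
    nlinarith
  rw [absNorm_eq_one_iff] at hJn
  rw [hJn, mul_top] at hJ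
  exact ⟨⟨α, by rw [← hJ]⟩⟩

end Fermat.Agent.S10
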