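import Mathlib
import Fermat.Agent.S10.CycNorm
import Fermat.Agent.S10.PrincipalOfNorm

set_option autoImplicit false

open NumberField Polynomial IsCyclotomicExtension

namespace Fermat.Agent.S10

lemma pid13_minkowski_lt (K : Type*) [Field K] [NumberField K] [IsCyclotomicExtension {13} ℚ K] :
    ⌊(4 / Real.pi) ^ InfinitePlace.nrComplexPlaces K *
      ((Module.finrank ℚ K).factorial / (Module.finrank ℚ K) ^ Module.finrank ℚ K *
        √|(discr K : ℝ)|)⌋₊ < 313 := by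
  have : Fact (Nat.Prime 13) := ⟨by norm_num⟩
  have hirr : Irreducible (cyclotomic 13 ℚ) := cyclotomic.irreducible_rat (by norm_num)
  have h1 : InfinitePlace.nrComplexPlaces K = 6 := by
    rw [IsCyclotomicExtension.Rat.nrComplexPlaces_eq_totient_div_two 13,
      Nat.totient_prime (by norm_num)]
  have h2 : Module.finrank ℚ K = 12 := by
    rw [IsCyclotomicExtension.finrank (n := 13) K hirr, Nat.totient_prime (by norm_num)]
  have h3 : |(discr K : ℝ)| = 13 ^ 11 := by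
    rw [IsCyclotomicExtension.Rat.discr_prime 13 K]
    norm_num
  rw [h1, h2, h3]
  have hs : √((13 : ℝ) ^ 11) < 1338900 := by
    rw [Real.sqrt_lt' (by norm_num)]
    norm_num
  have hpi : (4 / Real.pi) ^ 6 < (4 / 3.14) ^ 6 := by
    have := Real.pi_gt_d2
    gcongr
  rw [Nat.floor_lt (by positivity)]
  calc (4 / Real.pi) ^ 6 * (((12 : ℕ).factorial : ℝ) / ((12 : ℕ) : ℝ) ^ 12 * √((13 : ℝ) ^ 11))
      < (4 / 3.14) ^ 6 * (((12 : ℕ).factorial : ℝ) / ((12 : ℕ) : ℝ) ^ 12 * 1338900) := by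
        gcongr
    _ < ((313 : ℕ) : ℝ) := by
        norm_num [Nat.factorial]

set_option maxRecDepth 100000 in
lemma pid13_key : ∀ p ∈ Finset.range 313, ∀ f ∈ Finset.range 9,
    1 ≤ f → p ^ f < 313 → p ^ f % 13 = 1 → 2 ≤ p →
    (p = 3 ∨ p = 53 ∨ p = 79 ∨ p = 131 ∨ p = 157 ∨
      ∃ d ∈ Finset.range 12, 2 ≤ d ∧ d < p ∧ d ∣ p) := by
  decide +kernel

lemma pid13_order_bound (p : ℕ) (hpp : p.Prime) (hp : p < 313) (h3 : p ≠ 3) (h13 : p ≠ 13)
    (h53 : p ≠ 53) (h79 : p ≠ 79) (h131 : p ≠ 131) (h157 : p ≠ 157) :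
    313 ≤ p ^ orderOf ((p : ℕ) : ZMod 13) := by
  have : Fact (Nat.Prime 13) := ⟨by norm_num⟩
  by_contra hlt
  push Not at hlt
  set f := orderOf ((p : ℕ) : ZMod 13) with hf
  have hp0 : ((p : ℕ) : ZMod 13) ≠ 0 := by
    intro h0
    rw [ZMod.natCast_eq_zero_iff] at h0
    exact h13 ((Nat.prime_dvd_prime_iff_eq (by norm_num) hpp).mp h0).symm
  have hfpos : 1 ≤ f := by
    have h12 : ((p : ℕ) : ZMod 13) ^ 12 = 1 := ZMod.pow_card_sub_one_eq_one hp0
    have := orderOf_dvd_of_pow_eq_one h12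
    exact Nat.pos_of_dvd_of_pos this (by norm_num)
  have hmod : p ^ f % 13 = 1 := by
    have h1 : ((p : ℕ) : ZMod 13) ^ f = 1 := pow_orderOf_eq_one _
    have h2 : ((p ^ f : ℕ) : ZMod 13) = ((1 : ℕ) : ZMod 13) := by
      push_cast; exact h1
    have := (ZMod.natCast_eq_natCast_iff' _ _ _).mp h2
    simpa using this
  have hf9 : f < 9 := by
    by_contra h9
    push Not at h9
    have : 2 ^ 9 ≤ p ^ f :=
      le_trans (Nat.pow_le_pow_left hpp.two_le 9) (Nat.pow_le_pow_right hpp.pos h9)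
    omega
  rcases pid13_key p (Finset.mem_range.mpr hp) f (Finset.mem_range.mpr hf9) hfpos hlt hmod
    hpp.two_le with h | h | h | h | h | ⟨d, _, hd2, hdp, hdvd⟩
  · exact h3 h
  · exact h53 h
  · exact h79 h
  · exact h131 h
  · exact h157 h
  · rcases (Nat.dvd_prime hpp).mp hdvd with h | h <;> omega

lemma pid13_orderOf_two : orderOf ((2 : ℕ) : ZMod 13) = 13 - 1 := by
  rw [orderOf_eq_iff (by norm_num)]; decide

lemma pid13_orderOf_three : orderOf ((3 : ℕ) : ZMod 13) = 3 := by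
  rw [orderOf_eq_iff (by norm_num)]; decide

section

variable (K : Type*) [Field K] [NumberField K] [IsCyclotomicExtension {13} ℚ K]

lemma pid13_exists_principal_of_one (ℓ : ℕ) (hℓ : ℓ.Prime) (h13 : ℓ ≠ 13)
    (hmod : ((ℓ : ℕ) : ZMod 13) = 1) (a : Fin 13 → ℤ) (m : ℤ)
    (h : cnormAux 2 a (13 - 1) = fun k : Fin 13 => if (k : ℕ) = 0 then m + ℓ else m) :
    ∃ P ∈ Ideal.primesOver (Ideal.span {(ℓ : ℤ)}) (𝓞 K), Submodule.IsPrincipal P := by
  have : Fact (Nat.Prime 13) := ⟨by norm_num⟩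
  have : Fact ℓ.Prime := ⟨hℓ⟩
  have hnd : ¬ ℓ ∣ 13 := (Nat.prime_dvd_prime_iff_eq hℓ (by norm_num)).not.mpr h13
  refine exists_isPrincipal_of_norm_eq hℓ (f := 1) one_pos ?_
    (cev (zeta_spec 13 ℚ K).toInteger a) ?_
  · rintro P ⟨hP1, hP2⟩
    rw [IsCyclotomicExtension.Rat.inertiaDeg_eq_of_not_dvd ℓ K P hnd, hmod, orderOf_one]
  · rw [norm_cev_eq (K := K) 2 pid13_orderOf_two a m ℓ h]
    simp

lemma pid13_exists_principal_three :
    ∃ P ∈ Ideal.primesOver (Ideal.span {((3 : ℕ) : ℤ)}) (𝓞 K), Submodule.IsPrincipal P := by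
  have : Fact (Nat.Prime 13) := ⟨by norm_num⟩
  have : Fact (Nat.Prime 3) := ⟨by norm_num⟩
  have hnd : ¬ 3 ∣ 13 := by norm_num
  have hord := pid13_orderOf_three
  refine exists_isPrincipal_of_norm_eq (by norm_num : Nat.Prime 3) (f := 3) (by norm_num) ?_
    (cev (zeta_spec 13 ℚ K).toInteger ![1, 1, 0, -1, 0, 0, 0, 0, 0, 0, 0, 0, 0]) ?_
  · rintro P ⟨hP1, hP2⟩
    rw [IsCyclotomicExtension.Rat.inertiaDeg_eq_of_not_dvd 3 K P hnd, hord]
  · rw [norm_cev_eq (K := K) 2 pid13_orderOf_two _ (-2) 27 (by decide +kernel)]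
    norm_num

/-- The ring of integers of the `13`-th cyclotomic field is a principal ideal domain. -/
theorem pid_thirteen : IsPrincipalIdealRing (𝓞 K) := by
  have : IsGalois ℚ K := IsCyclotomicExtension.isGalois {13} ℚ K
  have : Fact (Nat.Prime 13) := ⟨by norm_num⟩
  have hM := pid13_minkowski_lt K
  apply RingOfIntegers.isPrincipalIdealRing_of_isPrincipal_of_lt_or_isPrincipal_of_mem_primesOver_of_mem_Icc
  intro p hp hpp
  have hp313 : p < 313 := lt_of_le_of_lt (Finset.mem_Icc.mp hp).2 hM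
  have : Fact p.Prime := ⟨hpp⟩
  by_cases h13 : p = 13
  · subst h13
    obtain ⟨⟨P, hP1, hP2⟩⟩ := (Ideal.span {((13 : ℕ) : ℤ)}).nonempty_primesOver (S := 𝓞 K)
    refine ⟨P, ⟨hP1, hP2⟩, Or.inr ?_⟩
    rw [IsCyclotomicExtension.Rat.eq_span_zeta_sub_one_of_liesOver' 13 K (zeta_spec 13 ℚ K) P]
    exact ⟨⟨_, rfl⟩⟩
  by_cases h3 : p = 3
  · subst h3
    obtain ⟨P, hP, hPp⟩ := pid13_exists_principal_three K
    exact ⟨P, hP, Or.inr hPp⟩
  by_cases h53 : p = 53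
  · subst h53
    obtain ⟨P, hP, hPp⟩ := pid13_exists_principal_of_one K 53 hpp (by norm_num) (by decide)
      ![1, 1, 0, 1, 0, 0, 0, 0, 0, 0, 0, 0, 0] 40876 (by decide +kernel)
    exact ⟨P, hP, Or.inr hPp⟩
  by_cases h79 : p = 79
  · subst h79
    obtain ⟨P, hP, hPp⟩ := pid13_exists_principal_of_one K 79 hpp (by norm_num) (by decide)
      ![1, 1, 0, 0, -1, 0, 0, 0, 0, 0, 0, 0, 0] (-6) (by decide +kernel)
    exact ⟨P, hP, Or.inr hPp⟩
  by_cases h131 : p = 131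
  · subst h131
    obtain ⟨P, hP, hPp⟩ := pid13_exists_principal_of_one K 131 hpp (by norm_num) (by decide)
      ![1, -1, 0, -1, 0, 0, 0, 0, 0, 0, 0, 0, 0] (-10) (by decide +kernel)
    exact ⟨P, hP, Or.inr hPp⟩
  by_cases h157 : p = 157
  · subst h157
    obtain ⟨P, hP, hPp⟩ := pid13_exists_principal_of_one K 157 hpp (by norm_num) (by decide)
      ![1, -1, 1, 0, 1, 0, 0, 0, 0, 0, 0, 0, 0] 303 (by decide +kernel)
    exact ⟨P, hP, Or.inr hPp⟩
  obtain ⟨⟨P, hP1, hP2⟩⟩ := (Ideal.span {(p : ℤ)}).nonempty_primesOver (S := 𝓞 K)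
  refine ⟨P, ⟨hP1, hP2⟩, Or.inl ?_⟩
  have hnd : ¬ p ∣ 13 := (Nat.prime_dvd_prime_iff_eq hpp (by norm_num)).not.mpr h13
  rw [IsCyclotomicExtension.Rat.inertiaDeg_eq_of_not_dvd p K P hnd]
  exact lt_of_lt_of_le hM (pid13_order_bound p hpp hp313 h3 h13 h53 h79 h131 h157)

end

end Fermat.Agent.S10
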