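import Mathlib

set_option autoImplicit false

open NumberField Polynomial IsCyclotomicExtension

namespace Fermat.Agent.S10

lemma pid7_minkowski_lt (K : Type*) [Field K] [NumberField K] [IsCyclotomicExtension {7} ℚ K] :
    ⌊(4 / Real.pi) ^ InfinitePlace.nrComplexPlaces K *
      ((Module.finrank ℚ K).factorial / (Module.finrank ℚ K) ^ Module.finrank ℚ K *
        √|(discr K : ℝ)|)⌋₊ < 7 := by
  have : Fact (Nat.Prime 7) := ⟨by norm_num⟩
  have hirr : Irreducible (cyclotomic 7 ℚ) := cyclotomic.irreducible_rat (by norm_num)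
  have h1 : InfinitePlace.nrComplexPlaces K = 3 := by
    rw [IsCyclotomicExtension.Rat.nrComplexPlaces_eq_totient_div_two 7,
      Nat.totient_prime (by norm_num)]
  have h2 : Module.finrank ℚ K = 6 := by
    rw [IsCyclotomicExtension.finrank (n := 7) K hirr, Nat.totient_prime (by norm_num)]
  have h3 : |(discr K : ℝ)| = 7 ^ 5 := by
    rw [IsCyclotomicExtension.Rat.discr_prime 7 K]
    norm_num
  rw [h1, h2, h3]
  have hs : √((7 : ℝ) ^ 5) < 130 := by
    rw [Real.sqrt_lt' (by norm_num)]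
    norm_num
  have hpi : (4 / Real.pi) ^ 3 < (4 / 3.14) ^ 3 := by
    have := Real.pi_gt_d2
    gcongr
  rw [Nat.floor_lt (by positivity)]
  calc (4 / Real.pi) ^ 3 * (((6 : ℕ).factorial : ℝ) / ((6 : ℕ) : ℝ) ^ 6 * √((7 : ℝ) ^ 5))
      < (4 / 3.14) ^ 3 * (((6 : ℕ).factorial : ℝ) / ((6 : ℕ) : ℝ) ^ 6 * 130) := by
        gcongr
    _ < ((7 : ℕ) : ℝ) := by
        norm_num [Nat.factorial]

lemma pid7_order_bound (p : ℕ) (hpp : p.Prime) (h1 : 1 ≤ p) (hp7 : p < 7) :
    7 ≤ p ^ orderOf ((p : ℕ) : ZMod 7) := by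
  interval_cases p <;> first
    | (exfalso; revert hpp; norm_num; done)
    | skip
  · have : orderOf ((2 : ℕ) : ZMod 7) = 3 := by
      rw [orderOf_eq_iff (by norm_num)]; decide
    rw [this]; norm_num
  · have : orderOf ((3 : ℕ) : ZMod 7) = 6 := by
      rw [orderOf_eq_iff (by norm_num)]; decide
    rw [this]; norm_num
  · have : orderOf ((5 : ℕ) : ZMod 7) = 6 := by
      rw [orderOf_eq_iff (by norm_num)]; decide
    rw [this]; norm_num

/-- The ring of integers of the `7`-th cyclotomic field is a principal ideal domain. -/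
theorem pid_seven (K : Type*) [Field K] [NumberField K] [IsCyclotomicExtension {7} ℚ K] :
    IsPrincipalIdealRing (𝓞 K) := by
  have : IsGalois ℚ K := IsCyclotomicExtension.isGalois {7} ℚ K
  have : Fact (Nat.Prime 7) := ⟨by norm_num⟩
  have hM := pid7_minkowski_lt K
  apply RingOfIntegers.isPrincipalIdealRing_of_isPrincipal_of_lt_or_isPrincipal_of_mem_primesOver_of_mem_Icc
  intro p hp hpp
  have hp7 : p < 7 := lt_of_le_of_lt (Finset.mem_Icc.mp hp).2 hM
  have : Fact p.Prime := ⟨hpp⟩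
  obtain ⟨⟨P, hP1, hP2⟩⟩ := (Ideal.span {(p : ℤ)}).nonempty_primesOver (S := 𝓞 K)
  refine ⟨P, ⟨hP1, hP2⟩, Or.inl ?_⟩
  have hnd : ¬ p ∣ 7 := (Nat.prime_dvd_prime_iff_eq hpp (by norm_num)).not.mpr (by omega)
  rw [IsCyclotomicExtension.Rat.inertiaDeg_eq_of_not_dvd p K P hnd]
  exact lt_of_lt_of_le hM (pid7_order_bound p hpp (Finset.mem_Icc.mp hp).1 hp7)

end Fermat.Agent.S10
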